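import Fermat.Agent.S41.MT.Plan
import Fermat.Agent.S41.M.Basics

/-!
# S41 / Theorem M, route A, piece MATRIX: the bottom-row symbol of `Φ`

`Φ : Γ₀(N)[1/q] → V` a homomorphism killing `T` and `L_N`, `V` without `2`-torsion.
`mtmF Φ c d` := the value of `Φ` on any element of `Γ₀(N)[1/q]` with bottom row `(c, d)`
(`0` if there is none).  `mtm_symbol` : it satisfies `MtSymbol N q`;
`stmtMtMatrix : StmtMtMatrix N q p` for an odd prime `p`.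
-/

set_option autoImplicit false
set_option linter.unusedSectionVars false
set_option linter.unusedSimpArgs false
set_option linter.style.haveILetI false

noncomputable section

namespace Fermat.Agent.S41.MT

open Matrix CongruenceSubgroup Fermat.Agent.S41

section symbol

variable {N q : ℕ} [NeZero q] {V : Type*} [AddCommGroup V]
  (Φ : Additive ↥(gamma0Inv N q) →+ V)

/-- the bottom-row symbol of `Φ` -/
def mtmF (c d : ℤ) : V :=
  open Classical in if h : ∃ v, IsBot Φ (c : ℚ) (d : ℚ) v then h.choose else 0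

/-- admissible rows are bottom rows of integral matrices -/
theorem mtm_exists_gamma {c d : ℤ} (h : MtAdm N c d) :
    ∃ γ : ↥(Gamma0 N), γ.1.1 1 0 = c ∧ γ.1.1 1 1 = d := by
  obtain ⟨hN, u, v, huv⟩ := h
  exact ⟨gamma0Mk N v (-u) c d (by linarith) hN, rfl, rfl⟩

theorem mtm_exists_isBot {c d : ℤ} (h : MtAdm N c d) : ∃ v, IsBot Φ (c : ℚ) (d : ℚ) v := by
  obtain ⟨γ, hc, hd⟩ := mtm_exists_gamma h
  refine ⟨_, (isBot_iota Φ γ).congr Φ ?_ ?_ rfl⟩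
  · rw [hc]
  · rw [hd]

variable (hT : Φ (Additive.ofMul (iotaInv N q (Tel N))) = 0)
  (hL : Φ (Additive.ofMul (iotaInv N q (Lel N))) = 0)

include hT in
theorem mtm_eq {c d : ℤ} {v : V} (h : IsBot Φ (c : ℚ) (d : ℚ) v) : mtmF Φ c d = v := by
  unfold mtmF
  have hex : ∃ v, IsBot Φ (c : ℚ) (d : ℚ) v := ⟨v, h⟩
  rw [dif_pos hex]
  exact IsBot.unique Φ hT (Classical.choose_spec hex) h

include hT in
theorem mtm_spec {c d : ℤ} (h : MtAdm N c d) : IsBot Φ (c : ℚ) (d : ℚ) (mtmF Φ c d) := by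
  obtain ⟨v, hv⟩ := mtm_exists_isBot Φ h
  rw [mtm_eq Φ hT hv]
  exact hv

include hT in
/-- the symbol computes `Φ` on `Γ₀(N)` -/
theorem mtm_iota (γ : ↥(Gamma0 N)) :
    Φ (Additive.ofMul (iotaInv N q γ)) = mtmF Φ (γ.1.1 1 0) (γ.1.1 1 1) :=
  (mtm_eq Φ hT (isBot_iota Φ γ)).symm

/-- `-1 ∈ Γ₀(N)[1/q]` -/
def mtmNeg (N q : ℕ) [NeZero q] : ↥(gamma0Inv N q) :=
  mbDel N q (-1) (by norm_num) (isZq_one q).neg (by
    have : ((-1 : ℚ))⁻¹ = -1 := by norm_num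
    rw [this]
    exact (isZq_one q).neg)

theorem mtmNeg_mul_self : mtmNeg N q * mtmNeg N q = 1 := by
  apply Subtype.ext
  apply sl2q_ext <;>
    simp only [mtmNeg, Subgroup.coe_mul, mbDel_coe, sl2q_mul00, sl2q_mul01, sl2q_mul10,
      sl2q_mul11, mbD_00, mbD_01, mbD_10, mbD_11, Subgroup.coe_one,
      Matrix.SpecialLinearGroup.coe_one, Matrix.one_apply_eq, Matrix.one_apply_ne,
      ne_eq, not_false_eq_true] <;> norm_num

theorem mtm_Phi_neg (h2 : ∀ v : V, v + v = 0 → v = 0) :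
    Φ (Additive.ofMul (mtmNeg N q)) = 0 := by
  apply h2
  rw [← mbF_mul, mtmNeg_mul_self, mbF_one]

/-- `(c, d) ↦ (-c, -d)` -/
theorem mtm_isBot_neg (h2 : ∀ v : V, v + v = 0 → v = 0) {c d : ℚ} {v : V}
    (h : IsBot Φ c d v) : IsBot Φ (-c) (-d) v := by
  obtain ⟨g, hc, hd, rfl⟩ := h
  refine ⟨mtmNeg N q * g, ?_, ?_, ?_⟩
  · simp only [mtmNeg, Subgroup.coe_mul, mbDel_coe, sl2q_mul10, mbD_10, mbD_11]
    rw [hc]
    norm_num
  · simp only [mtmNeg, Subgroup.coe_mul, mbDel_coe, sl2q_mul11, mbD_10, mbD_11]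
    rw [hd]
    norm_num
  · rw [mbF_mul, mtm_Phi_neg Φ h2, zero_add]

/-- `(c, d) ↦ (q² c, d)`: conjugation by `diag(1/q, q)` -/
theorem mtm_isBot_r4 {c d : ℚ} {v : V} (h : IsBot Φ c d v) :
    IsBot Φ ((q : ℚ) ^ 2 * c) d v := by
  have hq : (q : ℚ) ≠ 0 := Nat.cast_ne_zero.mpr (NeZero.ne q)
  obtain ⟨g, hc, hd, rfl⟩ := h
  refine ⟨(mbHel N q 1)⁻¹ * g * mbHel N q 1, ?_, ?_, mbF_conj' Φ (mbHel N q 1) g⟩
  · simp only [Subgroup.coe_mul, Subgroup.coe_inv, mbHel_coe, sl2q_mul00, sl2q_mul01, sl2q_mul10,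
      sl2q_mul11, sl2q_inv00, sl2q_inv01, sl2q_inv10, sl2q_inv11, mbD_00, mbD_01, mbD_10, mbD_11]
    rw [hc]
    field_simp
    ring
  · simp only [Subgroup.coe_mul, Subgroup.coe_inv, mbHel_coe, sl2q_mul00, sl2q_mul01, sl2q_mul10,
      sl2q_mul11, sl2q_inv00, sl2q_inv01, sl2q_inv10, sl2q_inv11, mbD_00, mbD_01, mbD_10, mbD_11]
    rw [hd]
    field_simp
    ring

/-- the bottom row of `γ₁ γ₂⁻¹` -/
theorem mtm_isBot_qq (γ₁ γ₂ : ↥(Gamma0 N)) :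
    IsBot Φ ((γ₁.1.1 1 0 : ℚ) * (γ₂.1.1 1 1 : ℚ) - (γ₁.1.1 1 1 : ℚ) * (γ₂.1.1 1 0 : ℚ))
      ((γ₁.1.1 1 1 : ℚ) * (γ₂.1.1 0 0 : ℚ) - (γ₁.1.1 1 0 : ℚ) * (γ₂.1.1 0 1 : ℚ))
      (Φ (Additive.ofMul (iotaInv N q γ₁)) - Φ (Additive.ofMul (iotaInv N q γ₂))) := by
  refine ⟨iotaInv N q γ₁ * (iotaInv N q γ₂)⁻¹, ?_, ?_, ?_⟩
  · simp only [Subgroup.coe_mul, Subgroup.coe_inv, iotaInv_coe, sl2q_mul10, sl2q_inv00,
      sl2q_inv10, gamma0Q_apply]
    ring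
  · simp only [Subgroup.coe_mul, Subgroup.coe_inv, iotaInv_coe, sl2q_mul11, sl2q_inv01,
      sl2q_inv11, gamma0Q_apply]
    ring
  · rw [mbF_mul, mbF_inv, sub_eq_add_neg]

include hT in
theorem mtm_r1 {c d : ℤ} (k : ℤ) (h : MtAdm N c d) : mtmF Φ c (d + k * c) = mtmF Φ c d := by
  refine mtm_eq Φ hT (((mtm_spec Φ hT h).b1 Φ hT (isZq_int q k)).congr Φ rfl ?_ rfl)
  push_cast; ring

include hT hL in
/-- **the symbol relations** -/
theorem mtm_symbol (h2 : ∀ v : V, v + v = 0 → v = 0) : MtSymbol N q (mtmF Φ) where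
  neg := by
    intro c d h
    have h1 := mtm_isBot_neg Φ h2 (mtm_spec Φ hT h)
    refine mtm_eq Φ hT (h1.congr Φ ?_ ?_ rfl)
    · push_cast; ring
    · push_cast; ring
  one := by
    intro c hc
    obtain ⟨k, rfl⟩ := hc
    refine mtm_eq Φ hT ((isBot_one Φ hL (isZq_int q k)).congr Φ ?_ ?_ rfl)
    · push_cast; ring
    · push_cast; ring
  r1 := by
    intro c d k h
    exact mtm_r1 Φ hT k h
  r2 := by
    intro c d k h
    refine mtm_eq Φ hT (((mtm_spec Φ hT h).b2 Φ hL (isZq_int q k)).congr Φ ?_ rfl rfl)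
    push_cast; ring
  r4 := by
    intro c d h _
    refine mtm_eq Φ hT ((mtm_isBot_r4 Φ (mtm_spec Φ hT h)).congr Φ ?_ rfl rfl)
    push_cast; ring
  tor := by
    intro c e J h _ hJ hqJ
    obtain ⟨j, rfl⟩ := hJ
    have hj : (q : ℤ) ^ (2 * j) ≡ 1 [ZMOD (N : ℤ)] := by
      rw [two_mul]; exact hqJ
    refine mtm_eq Φ hT (((mtm_spec Φ hT h).b5 Φ hT hL j hj).congr Φ rfl ?_ rfl)
    push_cast
    rw [two_mul]
  qq := by
    intro c₁ c₂ d e h₁ h₂ hco he1 he2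
    obtain ⟨γ₁, hγ₁c, hγ₁d⟩ := mtm_exists_gamma h₁
    obtain ⟨γ₂, hγ₂c, hγ₂d⟩ := mtm_exists_gamma h₂
    have hb := mtm_isBot_qq Φ γ₁ γ₂
    rw [mtm_iota Φ hT γ₁, mtm_iota Φ hT γ₂, hγ₁c, hγ₁d, hγ₂c, hγ₂d] at hb
    -- the integer `e₀`
    set a₂ := γ₂.1.1 0 0 with ha₂
    set b₂ := γ₂.1.1 0 1 with hb₂
    have hdet : a₂ * d - b₂ * c₂ = 1 := by
      have := gamma0_det N γ₂
      rw [hγ₂c, hγ₂d] at this
      exact this
    set e₀ : ℤ := d * a₂ - c₁ * b₂ with he₀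
    have hF0 : mtmF Φ (d * (c₁ - c₂)) e₀ = mtmF Φ c₁ d - mtmF Φ c₂ d := by
      refine mtm_eq Φ hT (hb.congr Φ ?_ ?_ rfl)
      · push_cast; ring
      · rw [he₀]; push_cast; ring
    -- `e ≡ e₀ mod d (c₁ - c₂)`
    have h1 : (c₁ - c₂) ∣ e - e₀ := by
      have h3 : (c₁ - c₂) ∣ e - 1 := (Int.modEq_iff_dvd.1 he1.symm)
      have h4 : e - e₀ = (e - 1) + (c₁ - c₂) * b₂ := by
        rw [he₀]; linear_combination (-1 : ℤ) * hdet
      rw [h4]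
      exact dvd_add h3 (dvd_mul_right _ _)
    have h2' : d ∣ e - e₀ := by
      have h3 : d ∣ e * c₂ - c₁ := (Int.modEq_iff_dvd.1 he2.symm)
      have h4 : (e - e₀) * c₂ = (e * c₂ - c₁) + d * (a₂ * (c₁ - c₂)) := by
        rw [he₀]; linear_combination (-c₁) * hdet
      have h5 : d ∣ (e - e₀) * c₂ := by
        rw [h4]
        exact dvd_add h3 (dvd_mul_right _ _)
      exact (h₂.2.symm).dvd_of_dvd_mul_right h5
    have h6 : d * (c₁ - c₂) ∣ e - e₀ := (hco.symm).mul_dvd h2' h1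
    obtain ⟨k, hk⟩ := h6
    have hadm : MtAdm N (d * (c₁ - c₂)) e₀ := by
      refine ⟨Dvd.dvd.mul_left (dvd_sub h₁.1 h₂.1) _, ?_⟩
      -- bottom row of `γ₁ γ₂⁻¹`
      refine ⟨γ₁.1.1 0 0 * b₂ - γ₁.1.1 0 1 * a₂, γ₁.1.1 0 0 * d - γ₁.1.1 0 1 * c₂, ?_⟩
      have hdet1 := gamma0_det N γ₁
      rw [hγ₁c, hγ₁d] at hdet1
      rw [he₀]
      linear_combination (a₂ * d - b₂ * c₂) * hdet1 + hdet
    have hr1 := mtm_r1 Φ hT k hadm
    rw [← hF0, ← hr1]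
    congr 1
    linarith

end symbol

/-- `ZMod p` has no `2`-torsion for an odd prime `p`. -/
theorem mtm_two_torsion (p : ℕ) (hp : p.Prime) (hp2 : p ≠ 2) (v : ZMod p) (h : v + v = 0) :
    v = 0 := by
  haveI : Fact p.Prime := ⟨hp⟩
  have h2 : (2 : ZMod p) ≠ 0 := by
    intro h0
    have h1 : ((2 : ℕ) : ZMod p) = 0 := by exact_mod_cast h0
    rw [ZMod.natCast_eq_zero_iff] at h1
    exact hp2 ((Nat.prime_dvd_prime_iff_eq hp Nat.prime_two).1 h1)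
  have h3 : (2 : ZMod p) * v = 0 := by rw [two_mul]; exact h
  rcases mul_eq_zero.1 h3 with h4 | h4
  · exact absurd h4 h2
  · exact h4

/-- **Matrix part** of Theorem M (route A): the bottom-row symbol of `Φ` exists. -/
theorem stmtMtMatrix (N q p : ℕ) [NeZero q] (hp : p.Prime) (hp2 : p ≠ 2) :
    StmtMtMatrix N q p := by
  intro Φ hT hL
  exact ⟨mtmF Φ, mtm_symbol Φ hT hL (mtm_two_torsion p hp hp2), fun γ => mtm_iota Φ hT γ⟩

end Fermat.Agent.S41.MT
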