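import Fermat.Agent.S41.MT.Plan
import Fermat.Agent.S41.M.Dir

/-!
# S41 / Theorem M, route A, Step 4 (`StmtMtFin`): the end of the proof (helper7)

Given that `x ↦ F (N x) π` is constant on the units mod `π` for the good primes `π`
(`StmtMtConst`), every symbol vanishes on the rows `(c, d)` with `d ≡ 1 mod N`:

* `c = 0`: `d = ± 1`, relations `one`, `neg`;
* `c ≠ 0`: by `r1` and Dirichlet `d` may be replaced by a large prime `d₀ ≡ d mod c`; by `r2`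
  and Dirichlet `c` may be replaced by `N π`, `π` a large prime, `π ≡ 3 mod 4`, `π ≡ 2 mod p`;
  then `qq` (with the rows `(N (x + 1), π)`, `(N x, π)`, `x (d₀ - 1) ≡ 1 mod π`) gives
  `F (N π) d₀ = F (N (x + 1)) π - F (N x) π = 0`.
-/

set_option autoImplicit false

namespace Fermat.Agent.S41.MT

open Fermat.Agent.S41.M

/-- a prime larger than `|m|`, `m ≠ 0`, does not divide `m` -/
theorem mtf_not_dvd_of_lt {π : ℕ} {m : ℤ} (hm : m ≠ 0) (h : m.natAbs < π) : ¬ (π : ℤ) ∣ m := by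
  intro hd
  have h1 : π ∣ m.natAbs := Int.natCast_dvd.mp hd
  have h2 : 0 < m.natAbs := Int.natAbs_pos.mpr hm
  exact absurd (Nat.le_of_dvd h2 h1) (not_le.mpr h)

/-- a prime not dividing `m` is coprime to `m` -/
theorem mtf_isCoprime_of_not_dvd {π : ℕ} (hπ : π.Prime) {m : ℤ} (h : ¬ (π : ℤ) ∣ m) :
    IsCoprime m (π : ℤ) :=
  ((Nat.prime_iff_prime_int.mp hπ).coprime_iff_not_dvd.mpr h).symm

/-- **Step 4** of route A. -/
theorem stmtMtFin (N q p : ℕ) [NeZero N] (hq : q.Prime) (_hqN : ¬ q ∣ N) (hp : p.Prime)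
    (hp2 : p ≠ 2) : StmtMtFin N q p := by
  intro hConst F hF c d hadm hd1
  have hN0 : (N : ℤ) ≠ 0 := Int.natCast_ne_zero.mpr (NeZero.ne N)
  by_cases hc : c = 0
  · -- `c = 0`: `d = ± 1`
    subst hc
    have hu : IsUnit d := isCoprime_zero_left.mp hadm.2
    rcases Int.isUnit_iff.mp hu with rfl | rfl
    · exact hF.one 0 (dvd_zero _)
    · have h1 := hF.neg 0 1 ⟨dvd_zero _, isCoprime_zero_left.mpr isUnit_one⟩
      rw [neg_zero] at h1
      rw [h1]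
      exact hF.one 0 (dvd_zero _)
  -- replace `d` by a large prime `d₀`
  obtain ⟨c', rfl⟩ := hadm.1
  have hc' : c' ≠ 0 := fun h => hc (by rw [h, mul_zero])
  have hcop : IsCoprime (N * c') d := hadm.2
  obtain ⟨d₀, hd₀B, hd₀, hd₀mod⟩ := mdir_prime (4 * p) hc hcop.symm
  obtain ⟨k, hk⟩ : ∃ k : ℤ, (d₀ : ℤ) = d + k * (N * c') := by
    obtain ⟨k, hk⟩ := hd₀mod.symm.dvd
    exact ⟨k, by linear_combination hk⟩
  have hFd : F (N * c') d = F (N * c') d₀ := by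
    rw [hk]
    exact (hF.r1 (N * c') d k hadm).symm
  rw [hFd]
  have hcop₀ : IsCoprime (N * c') (d₀ : ℤ) := by
    obtain ⟨u, w, huw⟩ := hcop
    exact ⟨u - w * k, w, by rw [hk]; linear_combination huw⟩
  have hd₀1 : (d₀ : ℤ) ≡ 1 [ZMOD (N : ℤ)] := by
    have h1 : (d₀ : ℤ) ≡ d [ZMOD (N : ℤ)] :=
      (Int.modEq_iff_dvd.mpr ⟨-(k * c'), by rw [hk]; ring⟩)
    exact h1.trans hd1
  have hpos₀ : (d₀ : ℤ) ≠ 0 := Int.natCast_ne_zero.mpr hd₀.ne_zero
  have hp3 : 3 ≤ p := by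
    have := hp.two_le
    omega
  have h4p : 4 * p < d₀ := hd₀B
  -- coprimality of the moduli `d₀`, `4`, `p`
  have hd₀2 : ¬ (2 : ℕ) ∣ d₀ := by
    intro h
    have := (Nat.prime_dvd_prime_iff_eq Nat.prime_two hd₀).mp h
    omega
  have hcop4 : IsCoprime (d₀ : ℤ) (4 : ℤ) := by
    have h2 : IsCoprime (d₀ : ℤ) (2 : ℤ) := by
      have : Nat.Coprime d₀ 2 := (Nat.coprime_comm.mp ((Nat.Prime.coprime_iff_not_dvd
        Nat.prime_two).mpr hd₀2))
      exact_mod_cast Nat.isCoprime_iff_coprime.mpr this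
    have : (4 : ℤ) = 2 * 2 := by norm_num
    rw [this]
    exact IsCoprime.mul_right h2 h2
  have hcopp : IsCoprime (d₀ : ℤ) (p : ℤ) := by
    have hne : ¬ p ∣ d₀ := by
      intro h
      have := (Nat.prime_dvd_prime_iff_eq hp hd₀).mp h
      omega
    have : Nat.Coprime d₀ p := Nat.coprime_comm.mp ((Nat.Prime.coprime_iff_not_dvd hp).mpr hne)
    exact Nat.isCoprime_iff_coprime.mpr this
  have hcop4p : IsCoprime (4 : ℤ) (p : ℤ) := by
    have hne : ¬ (2 : ℕ) ∣ p := by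
      intro h
      exact hp2 ((Nat.prime_dvd_prime_iff_eq Nat.prime_two hp).mp h).symm
    have h2 : IsCoprime (2 : ℤ) (p : ℤ) := by
      have : Nat.Coprime 2 p := (Nat.Prime.coprime_iff_not_dvd Nat.prime_two).mpr hne
      exact_mod_cast Nat.isCoprime_iff_coprime.mpr this
    have : (4 : ℤ) = 2 * 2 := by norm_num
    rw [this]
    exact IsCoprime.mul_left h2 h2
  -- the residues
  have hc'cop : IsCoprime c' (d₀ : ℤ) := IsCoprime.of_mul_left_right hcop₀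
  have h3cop : IsCoprime (3 : ℤ) (4 : ℤ) := ⟨-1, 1, by norm_num⟩
  have h2cop : IsCoprime (2 : ℤ) (p : ℤ) := by
    have hne : ¬ (2 : ℕ) ∣ p := by
      intro h
      exact hp2 ((Nat.prime_dvd_prime_iff_eq Nat.prime_two hp).mp h).symm
    have : Nat.Coprime 2 p := (Nat.Prime.coprime_iff_not_dvd Nat.prime_two).mpr hne
    exact_mod_cast Nat.isCoprime_iff_coprime.mpr this
  -- the bound
  have hQ0 : ((q : ℤ) ^ (2 * N.totient) - 1) ≠ 0 := by
    have hq2 : (2 : ℤ) ≤ q := by exact_mod_cast hq.two_le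
    have hpos : 0 < 2 * N.totient := by
      have := Nat.totient_pos.mpr (Nat.pos_of_ne_zero (NeZero.ne N))
      omega
    have h1 : (1 : ℤ) < (q : ℤ) ^ (2 * N.totient) := one_lt_pow₀ (by linarith) hpos.ne'
    linarith
  set B : ℕ := N + q + d₀ + ((q : ℤ) ^ (2 * N.totient) - 1).natAbs with hB
  obtain ⟨π, hπB, hπ, hπ1, hπ2, hπ3⟩ := mdir_prime3 B hpos₀ (by norm_num : (4 : ℤ) ≠ 0)
    (Int.natCast_ne_zero.mpr hp.ne_zero) hcop4 hcopp hcop4p hc'cop h3cop h2cop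
  -- properties of `π`
  have hπN : ¬ π ∣ N := by
    intro h
    have := Nat.le_of_dvd (Nat.pos_of_ne_zero (NeZero.ne N)) h
    omega
  have hπq : π ≠ q := by omega
  have hπQ : ¬ (π : ℤ) ∣ (q : ℤ) ^ (2 * N.totient) - 1 :=
    mtf_not_dvd_of_lt hQ0 (by omega)
  have hπ4 : π % 4 = 3 := by
    have h := hπ2
    have h' : (π : ℤ) % 4 = 3 := by
      have := h
      unfold Int.ModEq at this
      rw [this]
      norm_num
    omega
  have hπp : ¬ p ∣ π - 1 := by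
    intro h
    have h1 : (p : ℤ) ∣ (π : ℤ) - 2 := (Int.modEq_iff_dvd.mp hπ3.symm)
    have hπ1' : 1 ≤ π := hπ.one_lt.le
    have h2 : (p : ℤ) ∣ ((π - 1 : ℕ) : ℤ) := Int.natCast_dvd_natCast.mpr h
    rw [Nat.cast_sub hπ1', Nat.cast_one] at h2
    have h3 : (p : ℤ) ∣ 1 := by
      have := dvd_sub h2 h1
      have e : ((π : ℤ) - 1) - ((π : ℤ) - 2) = 1 := by ring
      rwa [e] at this
    have h4 : p ∣ 1 := by exact_mod_cast h3
    have := Nat.le_of_dvd one_pos h4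
    omega
  have hπd₀ : ¬ (π : ℤ) ∣ (d₀ : ℤ) :=
    mtf_not_dvd_of_lt hpos₀ (by rw [Int.natAbs_natCast]; omega)
  have hd₀m1 : ((d₀ : ℤ) - 1) ≠ 0 := by
    have : (2 : ℤ) ≤ d₀ := by exact_mod_cast hd₀.two_le
    linarith
  have hπd₀1 : ¬ (π : ℤ) ∣ (d₀ : ℤ) - 1 := by
    refine mtf_not_dvd_of_lt hd₀m1 ?_
    have h1 : ((d₀ : ℤ) - 1).natAbs = d₀ - 1 := by
      have : (1 : ℕ) ≤ d₀ := hd₀.one_lt.le
      omega
    omega
  -- replace `c` by `N π`
  have hcopNd₀ : IsCoprime (N : ℤ) (d₀ : ℤ) := IsCoprime.of_mul_left_left hcop₀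
  have hcopπd₀ : IsCoprime (π : ℤ) (d₀ : ℤ) := (mtf_isCoprime_of_not_dvd hπ hπd₀).symm
  have hadmπ : MtAdm N (N * π) d₀ := ⟨dvd_mul_right _ _, IsCoprime.mul_left hcopNd₀ hcopπd₀⟩
  obtain ⟨k', hk'⟩ : ∃ k' : ℤ, c' = π + k' * d₀ := by
    obtain ⟨k', hk'⟩ := hπ1.dvd
    exact ⟨k', by linear_combination hk'⟩
  have hFc : F (N * c') d₀ = F (N * π) d₀ := by
    have h := hF.r2 (N * π) d₀ k' hadmπ
    have e : (N : ℤ) * π + k' * (N * d₀) = N * c' := by rw [hk']; ring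
    rw [e] at h
    exact h
  rw [hFc]
  -- the inverse of `d₀ - 1` modulo `π`
  obtain ⟨x, w, hxw⟩ := mtf_isCoprime_of_not_dvd hπ hπd₀1
  -- `x * (d₀ - 1) + w * π = 1`
  have hπx : ¬ (π : ℤ) ∣ x := by
    intro h
    have h1 : (π : ℤ) ∣ x * ((d₀ : ℤ) - 1) + w * π :=
      dvd_add (Dvd.dvd.mul_right h _) (dvd_mul_left _ _)
    rw [hxw] at h1
    have h2 : π ∣ 1 := by exact_mod_cast h1
    exact hπ.one_lt.ne' (Nat.dvd_one.mp h2)
  have hxd : x * (d₀ : ℤ) = x + 1 - w * π := by linear_combination hxw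
  have hπx1 : ¬ (π : ℤ) ∣ x + 1 := by
    intro h
    have h1 : (π : ℤ) ∣ x * (d₀ : ℤ) := by
      rw [hxd]
      exact dvd_sub h (dvd_mul_left _ _)
    rcases (Nat.prime_iff_prime_int.mp hπ).dvd_or_dvd h1 with h2 | h2
    · exact hπx h2
    · exact hπd₀ h2
  have hcopNπ : IsCoprime (N : ℤ) (π : ℤ) :=
    mtf_isCoprime_of_not_dvd hπ (fun h => hπN (Int.natCast_dvd_natCast.mp h))
  have hadm₁ : MtAdm N (N * (x + 1)) π :=
    ⟨dvd_mul_right _ _, IsCoprime.mul_left hcopNπ (mtf_isCoprime_of_not_dvd hπ hπx1)⟩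
  have hadm₂ : MtAdm N (N * x) π :=
    ⟨dvd_mul_right _ _, IsCoprime.mul_left hcopNπ (mtf_isCoprime_of_not_dvd hπ hπx)⟩
  have hdiff : (N : ℤ) * (x + 1) - N * x = N := by ring
  have hqq := hF.qq (N * (x + 1)) (N * x) π d₀ hadm₁ hadm₂ (by rw [hdiff]; exact hcopNπ)
    (by rw [hdiff]; exact hd₀1)
    (Int.modEq_iff_dvd.mpr ⟨N * w, by linear_combination (-(N : ℤ)) * hxw⟩)
  rw [hdiff] at hqq
  have hcst := hConst F hF π hπ hπ4 hπN hπq hπQ hπp (x + 1) x hπx1 hπx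
  rw [mul_comm (N : ℤ) (π : ℤ), hqq, hcst, sub_self]

end Fermat.Agent.S41.MT
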