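import Mathlib

/-!
# S41 / Theorem M, route A, Step 2 (Dirichlet): the exponent `J` — Mathlib-only core

`mtu_main`: for primes `q ∤ N`, `π ≡ 3 mod 4`, `π ∤ N q (q ^ (2 φ(N)) - 1)` there is an even `J`
with `q ^ J ≡ 1 mod N`, `q ^ J ≢ 1 mod π`, and for every class `s ≢ 0 mod π` a level `δ = N t`
(`t` a prime, `t ≡ s mod π`) prime to `q π` with `q ^ J ≡ 1 mod δ`.

Proof.  `g = q ^ (2 φ(N))` has order `m > 1` in `(ℤ/π)ˣ`, `m ∣ (π - 1) / 2` odd; `r` a prime factor
of `m`.  For every class `i` choose a prime `t i ≡ i mod π`, `t i ≡ 2 mod r`, `t i > N q`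
(Dirichlet), `P = ∏ (t i - 1) ≡ 1 mod r`, `J = 2 φ(N) P`.
-/

set_option autoImplicit false
set_option linter.style.haveILetI false

namespace Fermat.Agent.S41.MT

/-- Dirichlet + CRT: a large prime in given classes mod `π` and mod `r`. -/
theorem mtu_exists_prime (π r : ℕ) (hπ : π.Prime) (hr : r.Prime) (hπr : π ≠ r) (hr2 : r ≠ 2)
    (a : ℕ) (ha : ¬ π ∣ a) (B : ℕ) :
    ∃ t : ℕ, B < t ∧ t.Prime ∧ t ≡ a [MOD π] ∧ t ≡ 2 [MOD r] := by
  have hco : Nat.Coprime π r := (Nat.coprime_primes hπ hr).2 hπr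
  obtain ⟨x, hxπ, hxr⟩ := Nat.chineseRemainder hco a 2
  have hxco : Nat.Coprime x (π * r) := by
    apply Nat.Coprime.mul_right
    · rw [Nat.coprime_comm, Nat.Prime.coprime_iff_not_dvd hπ]
      intro h
      exact ha ((Nat.modEq_zero_iff_dvd).1 (hxπ.symm.trans ((Nat.modEq_zero_iff_dvd).2 h)))
    · rw [Nat.coprime_comm, Nat.Prime.coprime_iff_not_dvd hr]
      intro h
      have h2 : r ∣ 2 := (Nat.modEq_zero_iff_dvd).1 (hxr.symm.trans ((Nat.modEq_zero_iff_dvd).2 h))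
      exact hr2 ((Nat.prime_dvd_prime_iff_eq hr Nat.prime_two).1 h2)
  obtain ⟨t, htB, htp, htx⟩ := Nat.forall_exists_prime_gt_and_modEq B (q := π * r) (a := x)
    (Nat.mul_ne_zero hπ.ne_zero hr.ne_zero) hxco
  exact ⟨t, htB, htp, (htx.of_mul_right r).trans hxπ, (htx.of_mul_left π).trans hxr⟩

/-- **Step 2.** -/
theorem mtu_main (N q : ℕ) (hN : N ≠ 0) (hq : q.Prime) (hqN : ¬ q ∣ N)
    (π : ℕ) (hπ : π.Prime) (hπ4 : π % 4 = 3) (hπN : ¬ π ∣ N) (hπq : π ≠ q)
    (hπo : ¬ (π : ℤ) ∣ (q : ℤ) ^ (2 * N.totient) - 1) :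
    ∃ J : ℕ, Even J ∧ (q : ℤ) ^ J ≡ 1 [ZMOD (N : ℤ)] ∧ ¬ ((q : ℤ) ^ J ≡ 1 [ZMOD (π : ℤ)]) ∧
      ∀ s : ℤ, ¬ (π : ℤ) ∣ s → ∃ δ : ℤ, (N : ℤ) ∣ δ ∧ IsCoprime δ (q : ℤ) ∧ IsCoprime δ (π : ℤ) ∧
        δ ≡ N * s [ZMOD (π : ℤ)] ∧ (q : ℤ) ^ J ≡ 1 [ZMOD δ] := by
  haveI : Fact π.Prime := ⟨hπ⟩
  have hπpos : 0 < π := hπ.pos
  -- the element `g`
  have hq0 : (q : ZMod π) ≠ 0 := by
    intro h
    rw [ZMod.natCast_eq_zero_iff] at h
    exact hπq ((Nat.prime_dvd_prime_iff_eq hπ hq).1 h)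
  set g : ZMod π := (q : ZMod π) ^ (2 * N.totient) with hg
  have hg1 : g ≠ 1 := by
    intro h
    apply hπo
    rw [← ZMod.intCast_zmod_eq_zero_iff_dvd]
    push_cast
    rw [← hg, h, sub_self]
  have hhalf : 2 * ((π - 1) / 2) = π - 1 := by omega
  have hgpow : g ^ ((π - 1) / 2) = 1 := by
    rw [hg, ← pow_mul, mul_comm 2 N.totient, mul_assoc, hhalf, pow_mul]
    exact ZMod.pow_card_sub_one_eq_one (pow_ne_zero _ hq0)
  set m := orderOf g with hm
  have hm1 : m ≠ 1 := by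
    intro h
    exact hg1 (orderOf_eq_one_iff.1 h)
  have hmdvd : m ∣ (π - 1) / 2 := orderOf_dvd_of_pow_eq_one hgpow
  set r := m.minFac with hrdef
  have hr : r.Prime := Nat.minFac_prime hm1
  have hrm : r ∣ m := Nat.minFac_dvd m
  have hrhalf : r ∣ (π - 1) / 2 := hrm.trans hmdvd
  have hhalfpos : 0 < (π - 1) / 2 := by omega
  have hr2 : r ≠ 2 := by
    intro h
    rw [h] at hrhalf
    omega
  have hrπ : π ≠ r := by
    intro h
    have := Nat.le_of_dvd hhalfpos hrhalf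
    omega
  -- the auxiliary primes
  have hex : ∀ i : ℕ, ∃ t : ℕ, N * q < t ∧ t.Prime ∧ t ≡ 2 [MOD r] ∧ (¬ π ∣ i → t ≡ i [MOD π]) := by
    intro i
    by_cases hi : π ∣ i
    · obtain ⟨t, h1, h2, -, h4⟩ := mtu_exists_prime π r hπ hr hrπ hr2 1
        (fun h => hπ.one_lt.ne' (Nat.dvd_one.1 h)) (N * q)
      exact ⟨t, h1, h2, h4, fun h => absurd hi h⟩
    · obtain ⟨t, h1, h2, h3, h4⟩ := mtu_exists_prime π r hπ hr hrπ hr2 i hi (N * q)
      exact ⟨t, h1, h2, h4, fun _ => h3⟩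
  choose t htB htp htr htπ using hex
  set P : ℕ := ∏ i ∈ Finset.range π, (t i - 1) with hP
  refine ⟨2 * N.totient * P, ⟨N.totient * P, by ring⟩, ?_, ?_, ?_⟩
  · -- mod N
    have hco : Nat.Coprime q N := (Nat.Prime.coprime_iff_not_dvd hq).2 hqN
    have h1 : q ^ (2 * N.totient * P) ≡ 1 [MOD N] := by
      have h2 : q ^ (2 * N.totient * P) = (q ^ N.totient) ^ (2 * P) := by
        rw [← pow_mul]; ring_nf
      rw [h2]
      have h3 := (Nat.ModEq.pow_totient hco).pow (2 * P)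
      rwa [one_pow] at h3
    have h4 := (Int.natCast_modEq_iff).2 h1
    push_cast at h4
    exact h4
  · -- mod π
    intro hcon
    have h1 : ((q : ℤ) ^ (2 * N.totient * P) : ZMod π) = ((1 : ℤ) : ZMod π) := by
      have := (ZMod.intCast_eq_intCast_iff _ _ _).2 hcon
      push_cast at this ⊢
      exact this
    have h2 : g ^ P = 1 := by
      rw [hg, ← pow_mul]
      push_cast at h1
      exact h1
    have h3 : m ∣ P := orderOf_dvd_of_pow_eq_one h2
    have h4 : r ∣ P := hrm.trans h3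
    haveI : Fact r.Prime := ⟨hr⟩
    have h5 : ((P : ℕ) : ZMod r) = 0 := (ZMod.natCast_eq_zero_iff _ _).2 h4
    have h6 : ((P : ℕ) : ZMod r) = 1 := by
      rw [hP, Nat.cast_prod]
      apply Finset.prod_eq_one
      intro i _
      have h7 : 1 ≤ t i := (htp i).one_lt.le
      rw [Nat.cast_sub h7]
      have h8 : ((t i : ℕ) : ZMod r) = ((2 : ℕ) : ZMod r) :=
        (ZMod.natCast_eq_natCast_iff _ _ _).2 (htr i)
      rw [h8]
      push_cast
      ring
    rw [h6] at h5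
    exact one_ne_zero h5
  · -- the levels
    intro s hs
    set i : ℕ := (s % (π : ℤ)).toNat with hi
    have hπz : (π : ℤ) ≠ 0 := by exact_mod_cast hπ.ne_zero
    have hi1 : ((i : ℕ) : ℤ) = s % (π : ℤ) := by
      rw [hi]
      exact Int.toNat_of_nonneg (Int.emod_nonneg _ hπz)
    have his : (i : ℤ) ≡ s [ZMOD (π : ℤ)] := by
      rw [hi1]
      exact Int.mod_modEq _ _
    have hiπ : ¬ π ∣ i := by
      intro h
      apply hs
      have h1 : (π : ℤ) ∣ (i : ℤ) := by exact_mod_cast h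
      exact (Int.modEq_zero_iff_dvd).1 (his.symm.trans ((Int.modEq_zero_iff_dvd).2 h1))
    have hilt : i < π := by
      have h1 : s % (π : ℤ) < π := Int.emod_lt_of_pos _ (by exact_mod_cast hπpos)
      have h2 : ((i : ℕ) : ℤ) < π := by rw [hi1]; exact h1
      exact_mod_cast h2
    have htq : t i ≠ q := by
      intro h
      have h1 := htB i
      rw [h] at h1
      have h2 : q ≤ N * q := Nat.le_mul_of_pos_left q (Nat.pos_of_ne_zero hN)
      omega
    have htN : ¬ t i ∣ N := by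
      intro h
      have h1 := Nat.le_of_dvd (Nat.pos_of_ne_zero hN) h
      have h2 := htB i
      have h3 : N ≤ N * q := Nat.le_mul_of_pos_right N hq.pos
      omega
    have htπ' : t i ≠ π := by
      intro h
      have h1 := htπ i hiπ
      rw [h] at h1
      exact hiπ ((Nat.modEq_zero_iff_dvd).1 (h1.symm.trans ((Nat.modEq_zero_iff_dvd).2 dvd_rfl)))
    refine ⟨((N * t i : ℕ) : ℤ), ?_, ?_, ?_, ?_, ?_⟩
    · push_cast
      exact Dvd.intro _ rfl
    · rw [Nat.isCoprime_iff_coprime]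
      apply Nat.Coprime.mul_left
      · exact ((Nat.Prime.coprime_iff_not_dvd hq).2 hqN).symm
      · exact (Nat.coprime_primes (htp i) hq).2 htq
    · rw [Nat.isCoprime_iff_coprime]
      apply Nat.Coprime.mul_left
      · exact ((Nat.Prime.coprime_iff_not_dvd hπ).2 hπN).symm
      · exact (Nat.coprime_primes (htp i) hπ).2 htπ'
    · push_cast
      have h1 : ((t i : ℕ) : ℤ) ≡ (i : ℤ) [ZMOD (π : ℤ)] := (Int.natCast_modEq_iff).2 (htπ i hiπ)
      exact Int.ModEq.mul_left _ (h1.trans his)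
    · have hcoNt : Nat.Coprime N (t i) :=
        ((Nat.Prime.coprime_iff_not_dvd (htp i)).2 htN).symm
      have hcoq : Nat.Coprime q N := (Nat.Prime.coprime_iff_not_dvd hq).2 hqN
      have hcoqt : Nat.Coprime q (t i) := (Nat.coprime_primes hq (htp i)).2 (Ne.symm htq)
      have hN1 : q ^ (2 * N.totient * P) ≡ 1 [MOD N] := by
        have h2 : q ^ (2 * N.totient * P) = (q ^ N.totient) ^ (2 * P) := by
          rw [← pow_mul]; ring_nf
        rw [h2]
        have h3 := (Nat.ModEq.pow_totient hcoq).pow (2 * P)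
        rwa [one_pow] at h3
      have ht1 : q ^ (2 * N.totient * P) ≡ 1 [MOD t i] := by
        have hdvd : (t i - 1) ∣ P := by
          rw [hP]
          exact Finset.dvd_prod_of_mem _ (Finset.mem_range.2 hilt)
        obtain ⟨k, hk⟩ := hdvd
        have h2 : q ^ (2 * N.totient * P) = (q ^ (t i - 1)) ^ (2 * N.totient * k) := by
          rw [← pow_mul, hk]; ring_nf
        rw [h2]
        have h3 := (Nat.ModEq.pow_totient hcoqt)
        rw [Nat.totient_prime (htp i)] at h3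
        have h4 := h3.pow (2 * N.totient * k)
        rwa [one_pow] at h4
      have h5 : q ^ (2 * N.totient * P) ≡ 1 [MOD N * t i] :=
        (Nat.modEq_and_modEq_iff_modEq_mul hcoNt).1 ⟨hN1, ht1⟩
      have h6 := (Int.natCast_modEq_iff).2 h5
      push_cast at h6 ⊢
      exact h6

end Fermat.Agent.S41.MT
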