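import Fermat.Agent.S41.MT.Plan
import Fermat.Agent.S41.MT.UCore

/-!
# S41 / Theorem M, route A, piece U (Step 2): `stmtMtU : StmtMtU N q`

See `UCore.lean` (`mtu_main`, Mathlib only) for the proof.
-/

set_option autoImplicit false

namespace Fermat.Agent.S41.MT

/-- **Step 2** (Dirichlet): the exponent `J`. -/
theorem stmtMtU (N q : ℕ) [NeZero N] (hq : q.Prime) (hqN : ¬ q ∣ N) : StmtMtU N q := by
  intro π hπ hπ4 hπN hπq hπo
  exact mtu_main N q (NeZero.ne N) hq hqN π hπ hπ4 hπN hπq hπo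

end Fermat.Agent.S41.MT
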