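import Fermat.Agent.S41.MT.Const
import Fermat.Agent.S41.MT.U
import Fermat.Agent.S41.MT.Fin

/-!
# S41 / Theorem M, route A: the number-theoretic part, assembled
-/

set_option autoImplicit false

namespace Fermat.Agent.S41.MT

/-- **Number-theoretic part** of Theorem M (route A): a symbol with values in `ZMod p`, `p` an odd
prime, vanishes on the rows with `d ≡ 1 mod N`. -/
theorem stmtMtNT (N q p : ℕ) [NeZero N] (hq : q.Prime) (hqN : ¬ q ∣ N) (hp : p.Prime)
    (hp2 : p ≠ 2) : StmtMtNT N q p :=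
  stmtMtFin N q p hq hqN hp hp2 (stmtMtConst N q p hq hp (stmtMtU N q hq hqN))

/-- Theorem M from the matrix part. -/
theorem stmtM_of_matrix (N q p : ℕ) [NeZero N] (hq : q.Prime) (hqN : ¬ q ∣ N) (hp : p.Prime)
    (hp2 : p ≠ 2) (hMat : StmtMtMatrix N q p) : StmtM N q (ZMod p) :=
  stmtM_of_mt N q p hMat (stmtMtNT N q p hq hqN hp hp2)

end Fermat.Agent.S41.MT
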