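import Fermat.Agent.S41.MT.Plan

/-!
# S41 / Theorem M, route A: elementary consequences of the symbol relations
-/

set_option autoImplicit false

namespace Fermat.Agent.S41.MT

theorem mt_prime_int {π : ℕ} (hπ : π.Prime) : Prime (π : ℤ) := Nat.prime_iff_prime_int.mp hπ

theorem mt_coprime_of_not_dvd {π : ℕ} (hπ : π.Prime) {m : ℤ} (h : ¬ (π : ℤ) ∣ m) :
    IsCoprime m (π : ℤ) :=
  (((mt_prime_int hπ).irreducible.coprime_iff_not_dvd).mpr h).symm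

theorem mt_not_dvd_of_coprime {π : ℕ} (hπ : π.Prime) {m : ℤ} (h : IsCoprime m (π : ℤ)) :
    ¬ (π : ℤ) ∣ m :=
  ((mt_prime_int hπ).irreducible.coprime_iff_not_dvd).mp h.symm

theorem mt_not_dvd_of_modEq {π : ℕ} {a b : ℤ} (h : a ≡ b [ZMOD (π : ℤ)]) (ha : ¬ (π : ℤ) ∣ a) :
    ¬ (π : ℤ) ∣ b := by
  intro hb
  apply ha
  have h1 : (π : ℤ) ∣ b - a := h.dvd
  have h2 : a = b - (b - a) := by ring
  rw [h2]
  exact dvd_sub hb h1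

theorem mt_not_dvd_mul {π : ℕ} (hπ : π.Prime) {a b : ℤ} (ha : ¬ (π : ℤ) ∣ a)
    (hb : ¬ (π : ℤ) ∣ b) : ¬ (π : ℤ) ∣ a * b := by
  intro h
  rcases (mt_prime_int hπ).dvd_or_dvd h with h | h
  · exact ha h
  · exact hb h

theorem mt_not_dvd_natCast {π : ℕ} {N : ℕ} (h : ¬ π ∣ N) : ¬ (π : ℤ) ∣ (N : ℤ) := by
  intro h'
  exact h (Int.natCast_dvd_natCast.mp h')

theorem mt_not_dvd_prime {π q : ℕ} (hπ : π.Prime) (hq : q.Prime) (h : π ≠ q) :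
    ¬ (π : ℤ) ∣ (q : ℤ) := by
  apply mt_not_dvd_natCast
  intro h'
  exact h ((Nat.prime_dvd_prime_iff_eq hπ hq).mp h')

theorem mt_not_dvd_pow {π : ℕ} (hπ : π.Prime) {a : ℤ} (ha : ¬ (π : ℤ) ∣ a) (n : ℕ) :
    ¬ (π : ℤ) ∣ a ^ n := by
  intro h
  exact ha ((mt_prime_int hπ).dvd_of_dvd_pow h)

theorem mt_adm_mul {N π : ℕ} (hπ : π.Prime) (hN : ¬ π ∣ N) {m : ℤ} (hm : ¬ (π : ℤ) ∣ m) :
    MtAdm N ((N : ℤ) * m) (π : ℤ) :=
  ⟨dvd_mul_right _ _, mt_coprime_of_not_dvd hπ (mt_not_dvd_mul hπ (mt_not_dvd_natCast hN) hm)⟩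

section symbol

variable {N q : ℕ} {V : Type*} [AddCommGroup V] {F : ℤ → ℤ → V}

/-- `F (N m) π` only depends on `m mod π`. -/
theorem mtF_congr (hF : MtSymbol N q F) {π : ℕ} (hπ : π.Prime) (hN : ¬ π ∣ N) {m m' : ℤ}
    (hm : ¬ (π : ℤ) ∣ m) (h : m ≡ m' [ZMOD (π : ℤ)]) :
    F ((N : ℤ) * m) (π : ℤ) = F ((N : ℤ) * m') (π : ℤ) := by
  obtain ⟨t, ht⟩ : (π : ℤ) ∣ m' - m := h.dvd
  have e : (N : ℤ) * m' = (N : ℤ) * m + t * ((N : ℤ) * (π : ℤ)) := by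
    have : m' = m + (π : ℤ) * t := by linarith
    rw [this]
    ring
  rw [e, hF.r2 _ _ _ (mt_adm_mul hπ hN hm)]

/-- Iterated `r4`. -/
theorem mtF_r4_pow (hF : MtSymbol N q F) {c d : ℤ} (hcd : MtAdm N c d)
    (hqd : IsCoprime (q : ℤ) d) (i : ℕ) : F ((q : ℤ) ^ (2 * i) * c) d = F c d := by
  induction i with
  | zero => simp
  | succ i ih =>
    have e : (q : ℤ) ^ (2 * (i + 1)) * c = (q : ℤ) ^ 2 * ((q : ℤ) ^ (2 * i) * c) := by ring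
    rw [e, hF.r4 _ _ ⟨Dvd.dvd.mul_left hcd.1 _, ?_⟩ hqd, ih]
    exact IsCoprime.mul_left (hqd.pow_left) hcd.2

theorem mtF_r4_even (hF : MtSymbol N q F) {c d : ℤ} (hcd : MtAdm N c d)
    (hqd : IsCoprime (q : ℤ) d) {J : ℕ} (hJ : Even J) : F ((q : ℤ) ^ J * c) d = F c d := by
  obtain ⟨i, rfl⟩ := hJ
  rw [← two_mul]
  exact mtF_r4_pow hF hcd hqd i

end symbol

/-- Chinese remainder theorem in the form needed. -/
theorem mt_crt {δ : ℤ} {π : ℕ} (h : IsCoprime δ (π : ℤ)) (w : ℤ) :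
    ∃ e : ℤ, e ≡ 1 [ZMOD δ] ∧ e ≡ w [ZMOD (π : ℤ)] := by
  obtain ⟨x, y, hxy⟩ := h
  refine ⟨1 + δ * x * (w - 1), ?_, ?_⟩
  · apply Int.ModEq.symm
    rw [Int.modEq_iff_dvd]
    exact ⟨x * (w - 1), by ring⟩
  · apply Int.ModEq.symm
    rw [Int.modEq_iff_dvd]
    exact ⟨- y * (w - 1), by linear_combination (w - 1) * hxy⟩

end Fermat.Agent.S41.MT
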