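import Fermat.Agent.S41.MT.Basic

/-!
# S41 / Theorem M, route A, Step 1: the relation (♣)
-/

set_option autoImplicit false

namespace Fermat.Agent.S41.MT

theorem mt_modEq_cancel {π N : ℕ} (hπ : π.Prime) (hN : ¬ π ∣ N) {x y : ℤ}
    (h : (N : ℤ) * x ≡ (N : ℤ) * y [ZMOD (π : ℤ)]) : x ≡ y [ZMOD (π : ℤ)] := by
  have h1 : (π : ℤ) ∣ (N : ℤ) * y - (N : ℤ) * x := h.dvd
  have h2 : (π : ℤ) ∣ (N : ℤ) * (y - x) := by
    rw [mul_sub]
    exact h1
  rcases (mt_prime_int hπ).dvd_or_dvd h2 with h3 | h3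
  · exact absurd h3 (mt_not_dvd_natCast hN)
  · exact (Int.modEq_iff_dvd.mpr h3)

/-- **Step 1**: the relation (♣). -/
theorem stmtMtClub (N q : ℕ) (hq : q.Prime) : StmtMtClub N q := by
  intro V _ F hF π J hπ hN hπq hJ hJN hLev a w k ha hw hk hrel
  have hqπ : ¬ (π : ℤ) ∣ (q : ℤ) := mt_not_dvd_prime hπ hq hπq
  have hqJπ : ¬ (π : ℤ) ∣ (q : ℤ) ^ J := mt_not_dvd_pow hπ hqπ J
  by_cases hw1 : w ≡ 1 [ZMOD (π : ℤ)]
  · have e1 : w * a ≡ a [ZMOD (π : ℤ)] := by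
      have := hw1.mul_right a
      rwa [one_mul] at this
    have e2 : w * a * k ≡ a * k [ZMOD (π : ℤ)] := e1.mul_right k
    rw [mtF_congr hF hπ hN (mt_not_dvd_mul hπ hw ha) e1,
      mtF_congr hF hπ hN (mt_not_dvd_mul hπ (mt_not_dvd_mul hπ hw ha) hk) e2, sub_self,
      sub_self]
  · have hw1' : ¬ (π : ℤ) ∣ w - 1 := by
      intro h
      apply hw1
      exact (Int.modEq_iff_dvd.mpr h).symm
    have hs : ¬ (π : ℤ) ∣ a * (w - 1) := mt_not_dvd_mul hπ ha hw1'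
    obtain ⟨δ, hNδ, hδq, hδπ, hδs, hδJ⟩ := hLev (a * (w - 1)) hs
    obtain ⟨δ', rfl⟩ := hNδ
    have hδ' : δ' ≡ a * (w - 1) [ZMOD (π : ℤ)] := mt_modEq_cancel hπ hN hδs
    obtain ⟨e, he1, hew⟩ := mt_crt hδπ w
    -- the first pair
    have hm1 : a + δ' ≡ w * a [ZMOD (π : ℤ)] := by
      have := (Int.ModEq.refl a).add hδ'
      have e : a + a * (w - 1) = w * a := by ring
      rwa [e] at this
    have hwa : ¬ (π : ℤ) ∣ w * a := mt_not_dvd_mul hπ hw ha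
    have hm1' : ¬ (π : ℤ) ∣ a + δ' := mt_not_dvd_of_modEq hm1.symm hwa
    have hc12 : (N : ℤ) * (a + δ') - (N : ℤ) * a = (N : ℤ) * δ' := by ring
    have hq1 := hF.qq ((N : ℤ) * (a + δ')) ((N : ℤ) * a) (π : ℤ) e (mt_adm_mul hπ hN hm1')
      (mt_adm_mul hπ hN ha) (by rw [hc12]; exact hδπ) (by rw [hc12]; exact he1) (by
        have h1 : e * ((N : ℤ) * a) ≡ w * ((N : ℤ) * a) [ZMOD (π : ℤ)] := hew.mul_right _
        have h2 : (N : ℤ) * (a + δ') ≡ (N : ℤ) * (w * a) [ZMOD (π : ℤ)] := hm1.mul_left _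
        have e3 : w * ((N : ℤ) * a) = (N : ℤ) * (w * a) := by ring
        rw [e3] at h1
        exact h1.trans h2.symm)
    rw [hc12, mtF_congr hF hπ hN hm1' hm1] at hq1
    -- the second pair
    have hm2 : a * k + δ' ≡ (q : ℤ) ^ J * (w * a * k) [ZMOD (π : ℤ)] := by
      have h1 := (Int.ModEq.refl (a * k)).add hδ'
      have h2 : a * k + a * (w - 1) ≡ a * k + a * (k * ((q : ℤ) ^ J * w - 1)) [ZMOD (π : ℤ)] :=
        (Int.ModEq.refl (a * k)).add ((hrel.mul_left a).symm)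
      have e : a * k + a * (k * ((q : ℤ) ^ J * w - 1)) = (q : ℤ) ^ J * (w * a * k) := by ring
      rw [e] at h2
      exact h1.trans h2
    have hwak : ¬ (π : ℤ) ∣ w * a * k := mt_not_dvd_mul hπ hwa hk
    have hqwak : ¬ (π : ℤ) ∣ (q : ℤ) ^ J * (w * a * k) := mt_not_dvd_mul hπ hqJπ hwak
    have hm2' : ¬ (π : ℤ) ∣ a * k + δ' := mt_not_dvd_of_modEq hm2.symm hqwak
    have hak : ¬ (π : ℤ) ∣ a * k := mt_not_dvd_mul hπ ha hk
    have hc12' : (N : ℤ) * (a * k + δ') - (N : ℤ) * (a * k) = (N : ℤ) * δ' := by ring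
    have hq2 := hF.qq ((N : ℤ) * (a * k + δ')) ((N : ℤ) * (a * k)) (π : ℤ) ((q : ℤ) ^ J * e)
      (mt_adm_mul hπ hN hm2') (mt_adm_mul hπ hN hak) (by rw [hc12']; exact hδπ) (by
        rw [hc12']
        have := hδJ.mul he1
        rwa [one_mul] at this) (by
        have h1 : (q : ℤ) ^ J * e * ((N : ℤ) * (a * k)) ≡
            (q : ℤ) ^ J * w * ((N : ℤ) * (a * k)) [ZMOD (π : ℤ)] :=
          (hew.mul_left _).mul_right _
        have h2 : (N : ℤ) * (a * k + δ') ≡ (N : ℤ) * ((q : ℤ) ^ J * (w * a * k)) [ZMOD (π : ℤ)] :=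
          hm2.mul_left _
        have e3 : (q : ℤ) ^ J * w * ((N : ℤ) * (a * k)) =
            (N : ℤ) * ((q : ℤ) ^ J * (w * a * k)) := by ring
        rw [e3] at h1
        exact h1.trans h2.symm)
    have e4 : (N : ℤ) * ((q : ℤ) ^ J * (w * a * k)) = (q : ℤ) ^ J * ((N : ℤ) * (w * a * k)) := by
      ring
    have hqπ' : IsCoprime (q : ℤ) (π : ℤ) := mt_coprime_of_not_dvd hπ hqπ
    rw [hc12', mtF_congr hF hπ hN hm2' hm2, e4,
      mtF_r4_even hF (mt_adm_mul hπ hN hwak) hqπ' hJ] at hq2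
    -- the torsion relation
    have he_π : ¬ (π : ℤ) ∣ e := mt_not_dvd_of_modEq hew.symm hw
    have he_δ : IsCoprime ((N : ℤ) * δ') e := by
      obtain ⟨t, ht⟩ : (N : ℤ) * δ' ∣ 1 - e := he1.dvd
      exact ⟨t, 1, by linear_combination ht.symm⟩
    have hadm : MtAdm N ((π : ℤ) * ((N : ℤ) * δ')) e :=
      ⟨Dvd.dvd.mul_left (dvd_mul_right _ _) _,
        IsCoprime.mul_left (mt_coprime_of_not_dvd hπ he_π).symm he_δ⟩
    have htor := hF.tor ((π : ℤ) * ((N : ℤ) * δ')) e J hadm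
      (IsCoprime.mul_right hqπ' hδq.symm) hJ hJN
    rw [← hq1, ← hq2, htor]

end Fermat.Agent.S41.MT
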