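import Fermat.Agent.S41.MT.Cyclic
import Fermat.Agent.S41.MT.Club

/-!
# S41 / Theorem M, route A: Steps 1 + 2 + 3 glued

For a symbol `F` with values in `ZMod p` and a prime `π ≡ 3 mod 4`, `π ∤ N q (q^{2φ(N)} - 1)`,
`p ∤ π - 1`, the function `m ↦ F (N m) π` is constant on the integers prime to `π`.
-/

set_option autoImplicit false

namespace Fermat.Agent.S41.MT

theorem mt_intCast_ne_zero {π : ℕ} {m : ℤ} (hm : ¬ (π : ℤ) ∣ m) : ((m : ℤ) : ZMod π) ≠ 0 := by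
  intro h
  exact hm ((ZMod.intCast_zmod_eq_zero_iff_dvd m π).mp h)

theorem mt_val_not_dvd {π : ℕ} [Fact π.Prime] (x : (ZMod π)ˣ) :
    ¬ (π : ℤ) ∣ (((x : ZMod π).val : ℕ) : ℤ) := by
  intro h
  have h1 : ((((x : ZMod π).val : ℕ) : ℤ) : ZMod π) = 0 :=
    (ZMod.intCast_zmod_eq_zero_iff_dvd _ π).mpr h
  rw [Int.cast_natCast, ZMod.natCast_zmod_val] at h1
  exact x.ne_zero h1

theorem mt_val_modEq {π : ℕ} [Fact π.Prime] (x : (ZMod π)ˣ) (m : ℤ)
    (h : (x : ZMod π) = ((m : ℤ) : ZMod π)) :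
    (((x : ZMod π).val : ℕ) : ℤ) ≡ m [ZMOD (π : ℤ)] := by
  apply (ZMod.intCast_eq_intCast_iff _ _ _).mp
  rw [Int.cast_natCast, ZMod.natCast_zmod_val]
  exact h

section

variable {N q : ℕ} {V : Type} [AddCommGroup V] {F : ℤ → ℤ → V}

/-- The function `G` on `(ℤ/π)ˣ`. -/
def mtG (N π : ℕ) (F : ℤ → ℤ → V) (x : (ZMod π)ˣ) : V :=
  F ((N : ℤ) * (((x : ZMod π).val : ℕ) : ℤ)) (π : ℤ)

theorem mtG_eq (hF : MtSymbol N q F) {π : ℕ} [Fact π.Prime] (hN : ¬ π ∣ N) (x : (ZMod π)ˣ)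
    (m : ℤ) (h : (x : ZMod π) = ((m : ℤ) : ZMod π)) :
    mtG N π F x = F ((N : ℤ) * m) (π : ℤ) :=
  mtF_congr hF (Fact.out : π.Prime) hN (mt_val_not_dvd x) (mt_val_modEq x m h)

theorem mtG_pow_sub {π : ℕ} (G : (ZMod π)ˣ → V)
    (hG : ∀ w z, G (z * w) - G z = G w - G 1) (w : (ZMod π)ˣ) (n : ℕ) :
    G (w ^ n) - G 1 = n • (G w - G 1) := by
  induction n with
  | zero => simp
  | succ n ih =>
    have h := hG w (w ^ n)
    rw [pow_succ, succ_nsmul, ← ih, ← h]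
    abel

end

/-- **Steps 1 + 2 + 3**. -/
theorem stmtMtConst (N q p : ℕ) (hq : q.Prime) (hp : p.Prime) (hU : StmtMtU N q) :
    StmtMtConst N q p := by
  intro F hF π hπ h4 hN hπq hord hpπ m₁ m₂ hm₁ hm₂
  obtain ⟨J, hJ, hJN, hJπ, hLev⟩ := hU π hπ h4 hN hπq hord
  have : Fact π.Prime := ⟨hπ⟩
  have hqπ : ¬ (π : ℤ) ∣ (q : ℤ) := mt_not_dvd_prime hπ hq hπq
  have hqJπ : ¬ (π : ℤ) ∣ (q : ℤ) ^ J := mt_not_dvd_pow hπ hqπ J
  let u : (ZMod π)ˣ := Units.mk0 ((((q : ℤ) ^ J : ℤ)) : ZMod π) (mt_intCast_ne_zero hqJπ)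
  have hu : u ≠ 1 := by
    intro h
    apply hJπ
    apply (ZMod.intCast_eq_intCast_iff _ _ _).mp
    have := congrArg (fun x : (ZMod π)ˣ => (x : ZMod π)) h
    simp only [u, Units.val_mk0, Units.val_one] at this
    rw [this, Int.cast_one]
  have hGu : ∀ x, mtG N π F (u * x) = mtG N π F x := by
    intro x
    rw [mtG_eq hF hN (u * x) ((q : ℤ) ^ J * (((x : ZMod π).val : ℕ) : ℤ)) (by
      rw [Units.val_mul, Int.cast_mul, Int.cast_natCast, ZMod.natCast_zmod_val]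
      rfl)]
    have e : (N : ℤ) * ((q : ℤ) ^ J * (((x : ZMod π).val : ℕ) : ℤ)) =
        (q : ℤ) ^ J * ((N : ℤ) * (((x : ZMod π).val : ℕ) : ℤ)) := by ring
    rw [e, mtF_r4_even hF (mt_adm_mul hπ hN (mt_val_not_dvd x))
      (mt_coprime_of_not_dvd hπ hqπ) hJ]
    rfl
  have hclub : ∀ a w κ : (ZMod π)ˣ, (κ : ZMod π) * ((u : ZMod π) * w - 1) = w - 1 →
      mtG N π F (w * a) - mtG N π F a = mtG N π F (w * a * κ) - mtG N π F (a * κ) := by
    intro a w κ hκ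
    have h := stmtMtClub N q hq (ZMod p) F hF π J hπ hN hπq hJ hJN hLev
      (((a : ZMod π).val : ℕ) : ℤ) (((w : ZMod π).val : ℕ) : ℤ) (((κ : ZMod π).val : ℕ) : ℤ)
      (mt_val_not_dvd a) (mt_val_not_dvd w) (mt_val_not_dvd κ) (by
        apply (ZMod.intCast_eq_intCast_iff _ _ _).mp
        push_cast
        simp only [ZMod.natCast_zmod_val]
        have : ((u : (ZMod π)ˣ) : ZMod π) = (q : ZMod π) ^ J := by
          simp only [u, Units.val_mk0]
          push_cast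
          rfl
        rw [← this]
        exact hκ)
    rw [mtG_eq hF hN (w * a) ((((w : ZMod π).val : ℕ) : ℤ) * (((a : ZMod π).val : ℕ) : ℤ)) (by
        rw [Units.val_mul, Int.cast_mul, Int.cast_natCast, Int.cast_natCast,
          ZMod.natCast_zmod_val, ZMod.natCast_zmod_val]),
      mtG_eq hF hN (w * a * κ) ((((w : ZMod π).val : ℕ) : ℤ) * (((a : ZMod π).val : ℕ) : ℤ) *
          (((κ : ZMod π).val : ℕ) : ℤ)) (by
        rw [Units.val_mul, Units.val_mul, Int.cast_mul, Int.cast_mul, Int.cast_natCast,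
          Int.cast_natCast, Int.cast_natCast, ZMod.natCast_zmod_val, ZMod.natCast_zmod_val,
          ZMod.natCast_zmod_val]),
      mtG_eq hF hN (a * κ) ((((a : ZMod π).val : ℕ) : ℤ) * (((κ : ZMod π).val : ℕ) : ℤ)) (by
        rw [Units.val_mul, Int.cast_mul, Int.cast_natCast, Int.cast_natCast,
          ZMod.natCast_zmod_val, ZMod.natCast_zmod_val])]
    exact h
  have hadd := stmtMtCyc π (ZMod p) (mtG N π F) u hu hGu hclub
  -- the homomorphism `G - G 1` is trivial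
  have hconst : ∀ w : (ZMod π)ˣ, mtG N π F w = mtG N π F 1 := by
    intro w
    have h1 := mtG_pow_sub (mtG N π F) hadd w (π - 1)
    have hcard : w ^ (π - 1) = 1 := by
      rw [← ZMod.card_units π]
      exact pow_card_eq_one
    rw [hcard, sub_self] at h1
    have h2 : p • (mtG N π F w - mtG N π F 1) = 0 := by
      rw [nsmul_eq_mul, ZMod.natCast_self, zero_mul]
    have h3 : addOrderOf (mtG N π F w - mtG N π F 1) ∣ Nat.gcd p (π - 1) :=
      Nat.dvd_gcd (addOrderOf_dvd_of_nsmul_eq_zero h2) (addOrderOf_dvd_of_nsmul_eq_zero h1.symm)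
    have h4 : Nat.gcd p (π - 1) = 1 := (Nat.Prime.coprime_iff_not_dvd hp).mpr hpπ
    rw [h4, Nat.dvd_one, AddMonoid.addOrderOf_eq_one_iff] at h3
    exact sub_eq_zero.mp h3
  have key : ∀ m : ℤ, ¬ (π : ℤ) ∣ m → F ((N : ℤ) * m) (π : ℤ) = mtG N π F 1 := by
    intro m hm
    rw [← hconst (Units.mk0 ((m : ℤ) : ZMod π) (mt_intCast_ne_zero hm))]
    exact (mtG_eq hF hN _ m (by rw [Units.val_mk0])).symm
  rw [key m₁ hm₁, key m₂ hm₂]

end Fermat.Agent.S41.MT
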