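import Fermat.Agent.S41.MT.Plan

/-!
# S41 / Theorem M, route A, Step 3: pure algebra in the cyclic group `(ℤ/π)ˣ`

`G : (ℤ/π)ˣ → V` with `G (u x) = G x` for some `u ≠ 1` and the relation (♣)
`G (w a) - G a = G (w a κ) - G (a κ)`, `κ = (w - 1) / (u w - 1)`, satisfies
`G (z w) - G z = G w - G 1`, i.e. `G - G 1` is a homomorphism.
-/

set_option autoImplicit false

namespace Fermat.Agent.S41.MT

section abstract

variable {C : Type*} [CommGroup C] {V : Type*} [AddCommGroup V]

/-- The second difference of `G`. -/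
def mtM2 (G : C → V) (z w c : C) : V := G z - G (z * w) - G (z * c) + G (z * w * c)

theorem mtM2_symm (G : C → V) (z w c : C) : mtM2 G z w c = mtM2 G z c w := by
  unfold mtM2
  rw [mul_right_comm z c w]
  abel

/-- `S_w`: the translations `c` fixing `z ↦ G (z w) - G z`. -/
def mtS (G : C → V) (w : C) : Subgroup C where
  carrier := {c | ∀ z, mtM2 G z w c = 0}
  one_mem' := by
    intro z
    simp [mtM2]
  mul_mem' := by
    intro c c' hc hc' z
    have h1 := hc z
    have h2 := hc' (z * c)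
    unfold mtM2 at h1 h2 ⊢
    have e1 : z * (c * c') = z * c * c' := (mul_assoc _ _ _).symm
    have e2 : z * w * (c * c') = z * c * w * c' := by
      rw [← mul_assoc, mul_right_comm z w c]
    have e3 : z * w * c = z * c * w := mul_right_comm _ _ _
    rw [e1, e2]
    rw [e3] at h1
    have : G z - G (z * w) - G (z * c * c') + G (z * c * w * c') =
        (G z - G (z * w) - G (z * c) + G (z * c * w)) +
          (G (z * c) - G (z * c * w) - G (z * c * c') + G (z * c * w * c')) := by abel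
    rw [this, h1, h2, add_zero]
  inv_mem' := by
    intro c hc z
    have h1 := hc (z * c⁻¹)
    unfold mtM2 at h1 ⊢
    have e1 : z * c⁻¹ * c = z := by rw [mul_assoc, inv_mul_cancel, mul_one]
    have e2 : z * c⁻¹ * w * c = z * w := by
      rw [mul_right_comm (z * c⁻¹) w c, e1]
    have e3 : z * w * c⁻¹ = z * c⁻¹ * w := mul_right_comm _ _ _
    rw [e1, e2] at h1
    rw [e3]
    have : G z - G (z * w) - G (z * c⁻¹) + G (z * c⁻¹ * w) =
        - (G (z * c⁻¹) - G (z * c⁻¹ * w) - G z + G (z * w)) := by abel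
    rw [this, h1, neg_zero]

theorem mem_mtS {G : C → V} {w c : C} : c ∈ mtS G w ↔ ∀ z, mtM2 G z w c = 0 := Iff.rfl

theorem mem_mtS_comm {G : C → V} {w c : C} : c ∈ mtS G w ↔ w ∈ mtS G c := by
  rw [mem_mtS, mem_mtS]
  constructor
  · intro h z
    rw [mtM2_symm]
    exact h z
  · intro h z
    rw [mtM2_symm]
    exact h z

/-- `𝒵`: the `w` with `S_w = ⊤`. -/
def mtZ (G : C → V) : Subgroup C := ⨅ c : C, mtS G c

theorem mem_mtZ {G : C → V} {w : C} : w ∈ mtZ G ↔ ∀ c, c ∈ mtS G w := by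
  unfold mtZ
  rw [Subgroup.mem_iInf]
  exact forall_congr' fun c => mem_mtS_comm

theorem mtZ_le_mtS (G : C → V) (c : C) : mtZ G ≤ mtS G c := iInf_le _ c

/-- The counting argument. -/
theorem mtZ_eq_top [Finite C] [IsCyclic C] (G : C → V) (k : C → C)
    (hk1 : ∀ w, w ∉ mtZ G → k w ∈ mtS G w) (hk2 : ∀ w, w ∉ mtZ G → k w ≠ 1)
    (hk3 : ∀ w w', w ∉ mtZ G → w' ∉ mtZ G → k w = k w' → w = w') : mtZ G = ⊤ := by
  classical
  by_contra hne
  obtain ⟨g, hg⟩ := IsCyclic.exists_generator (α := C)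
  have hgZ : g ∉ mtZ G := by
    intro hgZ
    apply hne
    rw [eq_top_iff]
    intro x _
    exact (Subgroup.zpowers_le.mpr hgZ) (hg x)
  have hgz : ∀ z, z ∈ mtZ G → g * z ∉ mtZ G := by
    intro z hz h
    apply hgZ
    have := (mtZ G).mul_mem h ((mtZ G).inv_mem hz)
    rwa [mul_assoc, mul_inv_cancel, mul_one] at this
  have hfZ : ∀ z, z ∈ mtZ G → k (g * z) ∈ mtZ G := by
    intro z hz
    have h1 : g * z ∈ mtS G (k (g * z)) := mem_mtS_comm.mp (hk1 _ (hgz z hz))
    have h2 : z ∈ mtS G (k (g * z)) := mtZ_le_mtS G _ hz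
    have h3 : g ∈ mtS G (k (g * z)) := by
      have := (mtS G (k (g * z))).mul_mem h1 ((mtS G (k (g * z))).inv_mem h2)
      rwa [mul_assoc, mul_inv_cancel, mul_one] at this
    rw [mem_mtZ]
    intro c
    exact (Subgroup.zpowers_le.mpr h3) (hg c)
  letI : Fintype C := Fintype.ofFinite C
  let Zf : Finset C := Finset.univ.filter (fun z => z ∈ mtZ G)
  have hmem : ∀ z, z ∈ Zf ↔ z ∈ mtZ G := by
    intro z
    simp [Zf]
  have himg : Zf.image (fun z => k (g * z)) ⊆ Zf.erase 1 := by
    intro c hc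
    obtain ⟨z, hz, rfl⟩ := Finset.mem_image.mp hc
    rw [hmem] at hz
    rw [Finset.mem_erase, hmem]
    exact ⟨hk2 _ (hgz z hz), hfZ z hz⟩
  have hinj : Set.InjOn (fun z => k (g * z)) (Zf : Set C) := by
    intro z hz z' hz' h
    have hz1 : z ∈ mtZ G := (hmem z).mp hz
    have hz2 : z' ∈ mtZ G := (hmem z').mp hz'
    exact mul_left_cancel (hk3 _ _ (hgz z hz1) (hgz z' hz2) h)
  have hcard : (Zf.image (fun z => k (g * z))).card = Zf.card := Finset.card_image_of_injOn hinj
  have h1 : (1 : C) ∈ Zf := (hmem 1).mpr (mtZ G).one_mem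
  have hlt : (Zf.erase 1).card < Zf.card := Finset.card_erase_lt_of_mem h1
  have hle := Finset.card_le_card himg
  omega

theorem mt_add_of_mtZ_eq_top (G : C → V) (h : mtZ G = ⊤) (w z : C) :
    G (z * w) - G z = G w - G 1 := by
  have hw : w ∈ mtZ G := by rw [h]; trivial
  have := (mem_mtZ.mp hw) z 1
  unfold mtM2 at this
  rw [one_mul, one_mul, mul_comm w z] at this
  have e : G (z * w) - G z = (G 1 - G w - G z + G (z * w)) + (G w - G 1) := by abel
  rw [e, this, zero_add]

end abstract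

/-- **Step 3**. -/
theorem stmtMtCyc : StmtMtCyc := by
  intro π _ V _ G u hu hGu hclub
  classical
  -- `u ∈ 𝒵`
  have huZ : u ∈ mtZ G := by
    rw [mem_mtZ]
    intro c z
    unfold mtM2
    rw [mul_comm z u, mul_assoc u z c, hGu, hGu]
    abel
  have h1K : ∀ w : (ZMod π)ˣ, w ≠ 1 → (w : ZMod π) - 1 ≠ 0 := by
    intro w hw h
    apply hw
    apply Units.ext
    rw [Units.val_one]
    exact sub_eq_zero.mp h
  have h2K : ∀ w : (ZMod π)ˣ, w ≠ u⁻¹ → (u : ZMod π) * w - 1 ≠ 0 := by
    intro w hw h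
    apply hw
    have : u * w = 1 := by
      apply Units.ext
      rw [Units.val_mul, Units.val_one]
      exact sub_eq_zero.mp h
    exact eq_inv_of_mul_eq_one_right this
  let k : (ZMod π)ˣ → (ZMod π)ˣ := fun w =>
    if h : (w : ZMod π) - 1 ≠ 0 ∧ (u : ZMod π) * w - 1 ≠ 0 then
      Units.mk0 (((w : ZMod π) - 1) / ((u : ZMod π) * w - 1)) (div_ne_zero h.1 h.2)
    else 1
  have hdom : ∀ w, w ∉ mtZ G → (w : ZMod π) - 1 ≠ 0 ∧ (u : ZMod π) * w - 1 ≠ 0 := by
    intro w hw
    refine ⟨h1K w ?_, h2K w ?_⟩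
    · rintro rfl
      exact hw (mtZ G).one_mem
    · rintro rfl
      exact hw ((mtZ G).inv_mem huZ)
  have hkval : ∀ w, w ∉ mtZ G →
      ((k w : (ZMod π)ˣ) : ZMod π) = ((w : ZMod π) - 1) / ((u : ZMod π) * w - 1) := by
    intro w hw
    simp only [k, dif_pos (hdom w hw), Units.val_mk0]
  have hu1 : (u : ZMod π) - 1 ≠ 0 := h1K u hu
  have hZ := mtZ_eq_top G k ?_ ?_ ?_
  · intro w z
    exact mt_add_of_mtZ_eq_top G hZ w z
  · intro w hw
    rw [mem_mtS]
    intro a
    have hc := hclub a w (k w) (by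
      rw [hkval w hw]
      exact div_mul_cancel₀ _ (hdom w hw).2)
    unfold mtM2
    rw [mul_comm a w]
    have e : G a - G (w * a) - G (a * k w) + G (w * a * k w) =
        (G (w * a * k w) - G (a * k w)) - (G (w * a) - G a) := by abel
    rw [e, hc, sub_self]
  · intro w hw h
    have h1 := hkval w hw
    rw [h, Units.val_one] at h1
    have h2 := (hdom w hw).2
    have h3 : (u : ZMod π) * w - 1 = w - 1 := by
      have := (eq_div_iff h2).mp h1
      rwa [one_mul] at this
    have h4 : ((u : ZMod π) - 1) * w = 0 := by linear_combination h3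
    rcases mul_eq_zero.mp h4 with h5 | h5
    · exact hu1 h5
    · exact w.ne_zero h5
  · intro w w' hw hw' h
    have h1 := hkval w hw
    have h1' := hkval w' hw'
    rw [h, h1'] at h1
    have h2 := (hdom w hw).2
    have h2' := (hdom w' hw').2
    have h3 : ((w' : ZMod π) - 1) * ((u : ZMod π) * w - 1) =
        ((w : ZMod π) - 1) * ((u : ZMod π) * w' - 1) :=
      (div_eq_div_iff h2' h2).mp h1
    have h4 : ((u : ZMod π) - 1) * ((w : ZMod π) - w') = 0 := by linear_combination -h3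
    rcases mul_eq_zero.mp h4 with h5 | h5
    · exact absurd h5 hu1
    · exact Units.ext (sub_eq_zero.mp h5)

end Fermat.Agent.S41.MT
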