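import Fermat.Agent.S41.MT.NT
import Fermat.Agent.S41.MT.Matrix

/-!
# S41 / Theorem M (route A), complete

`stmtM_routeA : StmtM N q (ZMod p)` for `q` prime, `q ∤ N`, `p` an odd prime: a homomorphism
`Γ₀(N)[1/q] → 𝔽_p` killing `T` and `L_N` kills every `γ ∈ Γ₀(N)` with `d ≡ 1 mod N`
(Mennicke / Serre's congruence subgroup property, in the form needed for Ihara's lemma).

Pieces: `Matrix.lean` (helper14, on helper97's `M/Basics.lean`), `Cyclic.lean`, `Club.lean`,
`Const.lean` (helper21), `U.lean` (helper14), `Fin.lean` (helper7).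
-/

set_option autoImplicit false

namespace Fermat.Agent.S41.MT

/-- **Theorem M** with coefficients in `𝔽_p`, `p` odd. -/
theorem stmtM_routeA (N q p : ℕ) [NeZero N] (hq : q.Prime) (hqN : ¬ q ∣ N) (hp : p.Prime)
    (hp2 : p ≠ 2) : StmtM N q (ZMod p) :=
  haveI : NeZero q := ⟨hq.ne_zero⟩
  stmtM_of_matrix N q p hq hqN hp hp2 (stmtMtMatrix N q p hp hp2)

end Fermat.Agent.S41.MT
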