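import Fermat.Agent.S41.IharaFinal

/-!
# S41 / Theorem M: interface of the elementary proof (helper21's route)

`Φ : Γ₀(N)[1/q] → V` a homomorphism killing `T` and `L_N`.  `F c d := Φ γ` for `γ ∈ Γ₀(N)` with
bottom row `(c, d)` is well defined and satisfies the relations collected in `MtSymbol`
(**matrix part**, `StmtMtMatrix`).  The **number-theoretic part** (`StmtMtNT`) shows that every
such symbol vanishes on rows with `d ≡ 1 mod N`; it only uses Dirichlet's theorem.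

Pieces of the number-theoretic part:
* `StmtMtCyc`  (Step 3) pure algebra in the cyclic group `(ℤ/π)ˣ`;
* `StmtMtU`    (Step 2) existence of the exponent `J` (Dirichlet);
* `StmtMtClub` (Step 1) the relation (♣) from the symbol relations;
* `StmtMtConst` = Steps 1 + 2 + 3: `x ↦ F (N x) π` is constant on `(ℤ/π)ˣ` for suitable `π`;
* `StmtMtFin`  (Step 4) `StmtMtConst → StmtMtNT`.
-/

set_option autoImplicit false

namespace Fermat.Agent.S41.MT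

open Matrix CongruenceSubgroup

/-- Admissible bottom rows of `Γ₀(N)`. -/
def MtAdm (N : ℕ) (c d : ℤ) : Prop := (N : ℤ) ∣ c ∧ IsCoprime c d

/-- The relations satisfied by the bottom-row symbol `F c d = Φ γ` (`γ ∈ Γ₀(N)` with bottom row
`(c, d)`) of a homomorphism `Φ : Γ₀(N)[1/q] → V` killing `T` and `L_N` (`V` without `2`-torsion).
With `x t = [[1,t],[0,1]]`, `y t = [[1,0],[t,1]]`, `h = diag(q, 1/q)`:
* `neg`: `Φ(-1) = 0`;  `one`: `Φ (y c) = 0`;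
* `r1`: `γ ↦ γ · x k`;  `r2`: `γ ↦ γ · y (k N)`;
* `r4`: `γ ↦ h γ h⁻¹`;
* `tor`: `γ ↦ h⁻ⁱ γ h⁻ⁱ` (`J = 2 i`), and `Φ (h ^ J) = 0` if `q ^ J ≡ 1 mod N`;
* `qq`: `γ₁ γ₂⁻¹` has bottom row `(d (c₁ - c₂), 1 - b₂ (c₁ - c₂))`. -/
structure MtSymbol (N q : ℕ) {V : Type*} [AddCommGroup V] (F : ℤ → ℤ → V) : Prop where
  neg : ∀ c d : ℤ, MtAdm N c d → F (-c) (-d) = F c d
  one : ∀ c : ℤ, (N : ℤ) ∣ c → F c 1 = 0
  r1 : ∀ c d k : ℤ, MtAdm N c d → F c (d + k * c) = F c d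
  r2 : ∀ c d k : ℤ, MtAdm N c d → F (c + k * (N * d)) d = F c d
  r4 : ∀ c d : ℤ, MtAdm N c d → IsCoprime (q : ℤ) d → F ((q : ℤ) ^ 2 * c) d = F c d
  tor : ∀ (c e : ℤ) (J : ℕ), MtAdm N c e → IsCoprime (q : ℤ) c → Even J →
    (q : ℤ) ^ J ≡ 1 [ZMOD (N : ℤ)] → F c ((q : ℤ) ^ J * e) = F c e
  qq : ∀ c₁ c₂ d e : ℤ, MtAdm N c₁ d → MtAdm N c₂ d → IsCoprime (c₁ - c₂) d →
    e ≡ 1 [ZMOD (c₁ - c₂)] → e * c₂ ≡ c₁ [ZMOD d] → F (d * (c₁ - c₂)) e = F c₁ d - F c₂ d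

/-- **Matrix part**: the bottom-row symbol of `Φ` exists. -/
def StmtMtMatrix (N q p : ℕ) : Prop :=
  ∀ Φ : Additive ↥(gamma0Inv N q) →+ ZMod p,
    Φ (Additive.ofMul (iotaInv N q (Tel N))) = 0 →
    Φ (Additive.ofMul (iotaInv N q (Lel N))) = 0 →
    ∃ F : ℤ → ℤ → ZMod p, MtSymbol N q F ∧
      ∀ γ : ↥(Gamma0 N), Φ (Additive.ofMul (iotaInv N q γ)) = F (γ.1.1 1 0) (γ.1.1 1 1)

/-- **Number-theoretic part**: a symbol vanishes on the rows with `d ≡ 1 mod N`. -/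
def StmtMtNT (N q p : ℕ) : Prop :=
  ∀ F : ℤ → ℤ → ZMod p, MtSymbol N q F →
    ∀ c d : ℤ, MtAdm N c d → d ≡ 1 [ZMOD (N : ℤ)] → F c d = 0

/-- Theorem M from the two parts. -/
theorem stmtM_of_mt (N q p : ℕ) (hMat : StmtMtMatrix N q p) (hNT : StmtMtNT N q p) :
    StmtM N q (ZMod p) := by
  intro Φ hT hL γ hγ
  obtain ⟨F, hF, hΦ⟩ := hMat Φ hT hL
  rw [hΦ]
  refine hNT F hF _ _ ⟨gamma0_dvd N γ, ?_⟩ ?_
  · have hdet := gamma0_det N γ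
    exact ⟨-(γ.1.1 0 1), γ.1.1 0 0, by linear_combination hdet⟩
  · have h1 : ((γ.1.1 1 1 : ℤ) : ZMod N) = 1 := hγ
    have h2 : ((γ.1.1 1 1 : ℤ) : ZMod N) = ((1 : ℤ) : ZMod N) := by rw [h1]; simp
    exact (ZMod.intCast_eq_intCast_iff _ _ _).mp h2

/-- The data produced by Step 2 for the prime `π` and exponent `J`: every class `s` mod `π` is
`δ / N` for a level `δ` prime to `q π` with `q ^ J ≡ 1 mod δ`. -/
def MtLevels (N q π J : ℕ) : Prop :=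
  ∀ s : ℤ, ¬ (π : ℤ) ∣ s → ∃ δ : ℤ, (N : ℤ) ∣ δ ∧ IsCoprime δ (q : ℤ) ∧ IsCoprime δ (π : ℤ) ∧
    δ ≡ N * s [ZMOD (π : ℤ)] ∧ (q : ℤ) ^ J ≡ 1 [ZMOD δ]

/-- **Step 3** (pure algebra in the cyclic group `(ℤ/π)ˣ`). -/
def StmtMtCyc : Prop :=
  ∀ (π : ℕ) [Fact π.Prime] (V : Type) [AddCommGroup V] (G : (ZMod π)ˣ → V) (u : (ZMod π)ˣ),
    u ≠ 1 → (∀ x, G (u * x) = G x) →
    (∀ a w κ : (ZMod π)ˣ, (κ : ZMod π) * ((u : ZMod π) * w - 1) = w - 1 →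
        G (w * a) - G a = G (w * a * κ) - G (a * κ)) →
    ∀ w z, G (z * w) - G z = G w - G 1

/-- **Step 2** (Dirichlet): the exponent `J`. -/
def StmtMtU (N q : ℕ) : Prop :=
  ∀ π : ℕ, π.Prime → π % 4 = 3 → ¬ π ∣ N → π ≠ q →
    ¬ (π : ℤ) ∣ (q : ℤ) ^ (2 * N.totient) - 1 →
    ∃ J : ℕ, Even J ∧ (q : ℤ) ^ J ≡ 1 [ZMOD (N : ℤ)] ∧ ¬ ((q : ℤ) ^ J ≡ 1 [ZMOD (π : ℤ)]) ∧
      MtLevels N q π J

/-- **Step 1**: the relation (♣), in integers. -/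
def StmtMtClub (N q : ℕ) : Prop :=
  ∀ (V : Type) [AddCommGroup V] (F : ℤ → ℤ → V), MtSymbol N q F →
    ∀ π J : ℕ, π.Prime → ¬ π ∣ N → π ≠ q → Even J → (q : ℤ) ^ J ≡ 1 [ZMOD (N : ℤ)] →
      MtLevels N q π J →
      ∀ a w k : ℤ, ¬ (π : ℤ) ∣ a → ¬ (π : ℤ) ∣ w → ¬ (π : ℤ) ∣ k →
        k * ((q : ℤ) ^ J * w - 1) ≡ w - 1 [ZMOD (π : ℤ)] →
        F (N * (w * a)) π - F (N * a) π = F (N * (w * a * k)) π - F (N * (a * k)) π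

/-- **Steps 1 + 2 + 3**: `x ↦ F (N x) π` is constant on the units mod `π`. -/
def StmtMtConst (N q p : ℕ) : Prop :=
  ∀ F : ℤ → ℤ → ZMod p, MtSymbol N q F →
    ∀ π : ℕ, π.Prime → π % 4 = 3 → ¬ π ∣ N → π ≠ q →
      ¬ (π : ℤ) ∣ (q : ℤ) ^ (2 * N.totient) - 1 → ¬ p ∣ π - 1 →
      ∀ m₁ m₂ : ℤ, ¬ (π : ℤ) ∣ m₁ → ¬ (π : ℤ) ∣ m₂ → F (N * m₁) π = F (N * m₂) π

/-- **Step 4**: the end of the proof. -/
def StmtMtFin (N q p : ℕ) : Prop := StmtMtConst N q p → StmtMtNT N q p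

end Fermat.Agent.S41.MT
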